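/-
S55 / layer G / block REC / adapter TOW, leaf UP-TOW (subtask 554)              (helper139)

`up_of : G.PClassUpperSpec → UpSpec p` — the Tower form of G-UP: for a level `M ⊇ μ_p` of `S ∋ p`
and a `p`-subgroup `H ≤ Gal(M/ℚ)` apply `G.PClassUpperSpec` to the group `↥H` acting on `M.F`
(at the subgroup `⊤`), and transport along the dictionary
`T.resSub (G.CRep S M.Gal M.F) H  =  G.CRep S ↥H M.F`  (same module, same action).
Complete proofs, standard axioms only.
-/
import Fermat.Agent.S55.G.Rec.Tow.Spec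

set_option autoImplicit false
set_option linter.style.haveILetI false

open CategoryTheory groupCohomology
open scoped NumberField

noncomputable section

namespace Fermat.Agent.S55.G.Rec.TOW.H139

open Fermat.Agent.S55 Fermat.Agent.S55.Tow Fermat.Agent.S55.E1.H594

/-- `Hⁿ(⊤, A|⊤) ≅ Hⁿ(Γ, A)`. -/
def topIso139 {k Γ : Type} [CommRing k] [Group Γ] (A : Rep.{0} k Γ) (n : ℕ) :
    groupCohomology (T.resSub A (⊤ : Subgroup Γ)) n ≅ groupCohomology A n :=
  groupCohomology.mapIso (A := A) (B := T.resSub A (⊤ : Subgroup Γ))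
    (Subgroup.topEquiv : (⊤ : Subgroup Γ) ≃* Γ) (LinearEquiv.refl k A.V) (fun _ => rfl) n

section Dict

variable (S : Finset Nat.Primes) (Γ L : Type) [Group Γ] [Field L] [NumberField L]
  [MulSemiringAction Γ L] (H : Subgroup Γ)

/-- The dictionary on representations: the class module of the subgroup `H` (acting on `L` by
restriction) is the restriction of the class module of `Γ`. -/
theorem cRepr_subgroup (h : H) : G.cRepr S H L h = G.cRepr S Γ L (h : Γ) := rfl

/-- `Hⁿ(H, C_S(L)) ≅ Hⁿ(H, Res_H C_S(L))`. -/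
def crepSubIso (n : ℕ) :
    groupCohomology (G.CRep S H L) n ≅ groupCohomology (T.resSub (G.CRep S Γ L) H) n :=
  groupCohomology.mapIso (A := T.resSub (G.CRep S Γ L) H) (B := G.CRep S H L)
    (MulEquiv.refl H) (LinearEquiv.refl ℤ (G.CS S L)) (fun _ => rfl) n

end Dict

/-- Transport of `T.CardDvd` along an isomorphism. -/
theorem cardDvd_of_iso {X Y : ModuleCat.{0} ℤ} (e : X ≅ Y) {m : ℕ} (h : T.CardDvd X m) :
    T.CardDvd Y m := by
  obtain ⟨hfin, hdvd⟩ := h
  have e' : X ≃ Y := e.toLinearEquiv.toEquiv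
  haveI := hfin
  exact ⟨Finite.of_equiv X e', by rwa [← Nat.card_congr e']⟩

/-- **UP-TOW.** -/
theorem up_of (p : ℕ) (hUP : G.PClassUpperSpec) : UpSpec p := by
  intro S hp hp2 hpS M hMu H hH
  haveI : Fact p.Prime := ⟨hp⟩
  haveI : Finite M.Gal := level_finite_gal M
  haveI : FaithfulSMul H M.F := level_faithfulSMul_subgroup M H
  obtain ⟨ζ, hζF, hζ⟩ := hMu
  have h := hUP p hp2 S H M.F hpS hH (level_isUnramOut_subgroup M H)
    (level_hasFixedRootOfUnity M hζF hζ H hH) ⊤
  refine ⟨Limits.IsZero.of_iso h.1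
      ((crepSubIso S M.Gal M.F H 1).symm ≪≫ (topIso139 (G.CRep S H M.F) 1).symm), ?_⟩
  have h2 := cardDvd_of_iso
    ((topIso139 (G.CRep S H M.F) 2) ≪≫ (crepSubIso S M.Gal M.F H 2)) h.2
  rwa [Subgroup.card_top] at h2

end Fermat.Agent.S55.G.Rec.TOW.H139

end
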